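import Fermat.Agent.FFRiemannRoch.Duality
import Mathlib.GroupTheory.CosetCover
import Mathlib.Algebra.Algebra.Operations
import Mathlib.FieldTheory.IsAlgClosed.Basic

/-!
# Linear systems over an algebraically closed field

Base point freeness (`exists_ord_eq_neg_of_two_mul_le`), separation of places
(`exists_separating`), nonspecial effective divisors of degree `g` (`exists_nonspecial_effective`)
and `L(D) L(E) = L(D + E)` (`span_mul_eq`).
-/

set_option autoImplicit false

noncomputable section

open AlgebraicCurve WithZero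

namespace FLTAgent.FFRiemannRoch

variable {K F : Type*} [Field K] [Field F] [Algebra K F]
  [∀ v : Place K F, v.FiniteResidue] [HasPrincipalDivisors K F] [Nonempty (Place K F)]
  [HasRiemannBound K F] [IsAlgClosed K]

/-- A function in `L(D)` with the largest possible pole at `v`. -/
theorem exists_mem_notMem_sub_single {D : Divisor K F} (v : Place K F)
    (h : 2 * (genusFF K F : ℤ) ≤ Divisor.degree D) :
    ∃ f ∈ riemannRochSpace D, f ∉ riemannRochSpace (D - Finsupp.single v 1) := by
  by_contra hne
  push Not at hne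
  have hle : ell K F D ≤ ell K F (D - Finsupp.single v 1) := Submodule.finrank_mono hne
  have h1 := ell_eq_of_lt (D := D) (by omega)
  have h2 := ell_eq_of_lt (D := D - Finsupp.single v 1) (by simp [deg_eq_one]; omega)
  rw [map_sub, Divisor.degree_single, deg_eq_one] at h2
  omega

omit [∀ v : Place K F, v.FiniteResidue] [HasPrincipalDivisors K F] [Nonempty (Place K F)]
  [HasRiemannBound K F] [IsAlgClosed K] in
theorem ord_eq_neg_of_mem_of_notMem {D : Divisor K F} {v : Place K F} {f : F}
    (hf : f ∈ riemannRochSpace D) (hf' : f ∉ riemannRochSpace (D - Finsupp.single v 1)) :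
    f ≠ 0 ∧ v.ord f = -D v := by
  have hf0 : f ≠ 0 := fun h => hf' (h ▸ zero_mem _)
  refine ⟨hf0, ?_⟩
  have h1 := (mem_riemannRochSpace_iff.mp hf v).resolve_left hf0
  by_contra hne
  refine hf' (mem_riemannRochSpace_iff.mpr fun w => Or.inr ?_)
  have hw := (mem_riemannRochSpace_iff.mp hf w).resolve_left hf0
  rcases eq_or_ne w v with rfl | hwv
  · simp; omega
  · simpa [hwv] using hw

/-- Base point freeness in degree at least `2g`. -/
theorem exists_ord_eq_neg_of_two_mul_le {D : Divisor K F} (v : Place K F)
    (h : 2 * (genusFF K F : ℤ) ≤ Divisor.degree D) :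
    ∃ f ∈ riemannRochSpace D, f ≠ 0 ∧ v.ord f = -D v := by
  obtain ⟨f, hf, hf'⟩ := exists_mem_notMem_sub_single v h
  exact ⟨f, hf, ord_eq_neg_of_mem_of_notMem hf hf'⟩

/-- Separation of points (`v ≠ w`) and of tangent vectors (`v = w`) in degree at least `2g + 1`. -/
theorem exists_separating {D : Divisor K F} (v w : Place K F)
    (h : 2 * (genusFF K F : ℤ) + 1 ≤ Divisor.degree D) :
    ∃ f ∈ riemannRochSpace (D - Finsupp.single w 1), f ≠ 0 ∧
      v.ord f = -(D - Finsupp.single w 1 : Divisor K F) v :=
  exists_ord_eq_neg_of_two_mul_le v (by simp [deg_eq_one]; omega)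

/-- A function with a single pole, of any order `n ≥ 2g`. -/
theorem exists_pole_only_at (v : Place K F) {n : ℕ} (hn : 2 * genusFF K F ≤ n) :
    ∃ f : F, f ≠ 0 ∧ v.ord f = -(n : ℤ) ∧ ∀ w, w ≠ v → 0 ≤ w.ord f := by
  obtain ⟨f, hf, hf0, hord⟩ := exists_ord_eq_neg_of_two_mul_le
    (D := Finsupp.single v (n : ℤ)) v (by simp [deg_eq_one]; omega)
  refine ⟨f, hf0, by simpa using hord, fun w hw => ?_⟩
  simpa [hw] using (mem_riemannRochSpace_iff.mp hf w).resolve_left hf0

/-- Over an algebraically closed field there are infinitely many places. -/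
theorem infinite_place : Infinite (Place K F) := by
  obtain ⟨v⟩ := ‹Nonempty (Place K F)›
  obtain ⟨x, hx0, hxv, -⟩ := exists_pole_only_at v (n := 2 * genusFF K F + 1) (by omega)
  have hnc : ∀ c : K, x ≠ algebraMap K F c := by
    rintro c rfl
    have := (mem_ball_iff_ord v).mp (algebraMap_mem_ball v (le_refl (0 : ℤ)) c)
    rcases this with h | h
    · exact hx0 h
    · omega
  have hzero : ∀ c : K, ∃ w : Place K F, x - algebraMap K F c ∈ ball w (-1) := by
    intro c
    by_contra hne
    push Not at hne
    have hne' : x - algebraMap K F c ≠ 0 := sub_ne_zero.mpr (hnc c)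
    have hnonpos : ∀ w : Place K F, w.ord (x - algebraMap K F c) ≤ 0 := fun w => by
      have := hne w
      rw [mem_ball_iff_ord] at this
      push Not at this
      omega
    have hinv : (x - algebraMap K F c)⁻¹ ∈ riemannRochSpace (0 : Divisor K F) := by
      rw [mem_riemannRochSpace_iff]
      intro w
      right
      rw [w.ord_inv]
      have := hnonpos w
      simp only [Finsupp.coe_zero, Pi.zero_apply]
      omega
    obtain ⟨d, hd⟩ := eq_algebraMap_of_mem_riemannRochSpace_zero hinv
    refine hnc (c + d⁻¹) ?_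
    rw [map_add, map_inv₀, ← hd, inv_inv]
    ring
  choose w hw using hzero
  refine Infinite.of_injective w fun c d hcd => ?_
  by_contra hne
  have h1 := sub_mem (hw d) (hcd ▸ hw c)
  rw [show x - algebraMap K F d - (x - algebraMap K F c) = algebraMap K F (c - d) by
    rw [map_sub]; ring, mem_ball_iff_ord] at h1
  have hcd0 : algebraMap K F (c - d) ≠ 0 :=
    (map_ne_zero_iff _ (algebraMap K F).injective).mpr (sub_ne_zero.mpr hne)
  have h2 := (mem_ball_iff_ord (w d)).mp (algebraMap_mem_ball (w d) (le_refl (0 : ℤ)) (c - d)⁻¹)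
  rw [map_inv₀, (w d).ord_inv] at h2
  simp only [hcd0, inv_eq_zero, false_or] at h1 h2
  omega

/-- For every `k ≤ g` and every finite set `S` there are `k` places outside `S` imposing
independent conditions on the canonical system. -/
theorem exists_places_h1 (S : Finset (Place K F)) {k : ℕ} (hk : k ≤ genusFF K F) :
    ∃ T : Finset (Place K F), T.card = k ∧ Disjoint T S ∧
      h1 K F (∑ v ∈ T, Finsupp.single v 1) + k = genusFF K F := by
  classical
  obtain ⟨W, hW, -⟩ := exists_canonical (K := K) (F := F)
  induction k with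
  | zero => exact
    ⟨∅, rfl, Finset.disjoint_empty_left _, by simp only [Finset.sum_empty, add_zero]; rfl⟩
  | succ k ih =>
    obtain ⟨T, hT, hTS, hh⟩ := ih (by omega)
    set E : Divisor K F := ∑ v ∈ T, Finsupp.single v 1
    obtain ⟨f, hf, hf0⟩ := exists_ne_zero_of_ell_pos (D := W - E) (by rw [← hW]; omega)
    have := infinite_place (K := K) (F := F)
    obtain ⟨v, hv⟩ := Infinite.exists_notMem_finset (S ∪ T ∪ (divOf f + (W - E)).support)
    simp only [Finset.mem_union, not_or, Finsupp.mem_support_iff, not_not] at hv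
    refine ⟨insert v T, by rw [Finset.card_insert_of_notMem hv.1.2, hT],
      Finset.disjoint_insert_left.mpr ⟨hv.1.1, hTS⟩, ?_⟩
    rw [Finset.sum_insert hv.1.2, add_comm (Finsupp.single v 1), hW]
    have hnot : f ∉ riemannRochSpace (W - (E + Finsupp.single v 1)) := fun hmem => by
      have := (mem_riemannRochSpace_iff_divOf hf0).mp hmem v
      simp only [Finsupp.coe_zero, Pi.zero_apply, Finsupp.add_apply, Finsupp.sub_apply,
        Finsupp.single_eq_same] at this
      have h2 := hv.2
      simp only [Finsupp.add_apply, Finsupp.sub_apply] at h2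
      omega
    have hlt : ell K F (W - (E + Finsupp.single v 1)) < ell K F (W - E) := by
      refine Submodule.finrank_lt_finrank_of_lt (lt_of_le_of_ne
        (FFBasic.riemannRochSpace_mono (sub_le_sub_left (le_add_single E v) W)) fun h => ?_)
      exact hnot (h ▸ hf)
    have hstep := degree_sub_ell_mono (sub_le_sub_left (le_add_single E v) W :
      W - (E + Finsupp.single v 1) ≤ W - E)
    simp only [map_sub, map_add, Divisor.degree_single, deg_eq_one] at hstep
    have hE := hW E
    show ell K F (W - (E + Finsupp.single v 1)) + (k + 1) = genusFF K F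
    omega

/-- An effective nonspecial divisor of degree `g` with distinct places avoiding a finite set. -/
theorem exists_nonspecial_effective (S : Finset (Place K F)) :
    ∃ T : Finset (Place K F), T.card = genusFF K F ∧ Disjoint T S ∧
      h1 K F (∑ v ∈ T, Finsupp.single v 1) = 0 ∧
      ell K F (∑ v ∈ T, Finsupp.single v 1) = 1 := by
  obtain ⟨T, hT, hTS, h⟩ := exists_places_h1 S (le_refl (genusFF K F))
  refine ⟨T, hT, hTS, by omega, ?_⟩
  have hrr := riemann_roch_isAlgClosed (∑ v ∈ T, Finsupp.single v 1 : Divisor K F)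
  have hdeg : Divisor.degree (∑ v ∈ T, Finsupp.single v 1 : Divisor K F) = T.card := by
    simp [map_sum, deg_eq_one]
  omega

/-- A pencil without base points in `L(E)`. -/
theorem exists_basePointFree_pencil {E : Divisor K F}
    (h : 2 * (genusFF K F : ℤ) ≤ Divisor.degree E) :
    ∃ s ∈ riemannRochSpace E, ∃ t ∈ riemannRochSpace E, s ≠ 0 ∧ t ≠ 0 ∧
      ∀ v, v.ord s = -E v ∨ v.ord t = -E v := by
  classical
  obtain ⟨v₀⟩ := ‹Nonempty (Place K F)›
  obtain ⟨s, hs, hs0, -⟩ := exists_ord_eq_neg_of_two_mul_le v₀ h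
  set Z := insert v₀ (divOf s + E).support
  let p : Place K F → Submodule K (riemannRochSpace E) := fun v =>
    (riemannRochSpace (E - Finsupp.single v 1)).comap (Submodule.subtype _)
  have hp : (⊤ : Submodule K (riemannRochSpace E)) ∉ Z.image p := by
    intro htop
    obtain ⟨v, -, hv⟩ := Finset.mem_image.mp htop
    obtain ⟨f, hf, hf'⟩ := exists_mem_notMem_sub_single v h
    exact hf' (show (⟨f, hf⟩ : riemannRochSpace E) ∈ p v from hv ▸ Submodule.mem_top)
  have : Infinite K := IsAlgClosed.instInfinite
  obtain ⟨t, ht⟩ := (Set.ne_univ_iff_exists_notMem _).mp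
    (Subspace.biUnion_ne_univ_of_top_notMem hp)
  simp only [Finset.set_biUnion_finset_image, Set.mem_iUnion, not_exists] at ht
  refine ⟨s, hs, t, t.2, hs0, ?_, fun v => ?_⟩
  · exact (ord_eq_neg_of_mem_of_notMem t.2 (ht v₀ (Finset.mem_insert_self _ _))).1
  · by_cases hv : v ∈ Z
    · exact Or.inr (ord_eq_neg_of_mem_of_notMem t.2 (ht v hv)).2
    · left
      simp only [Z, Finset.mem_insert, not_or, Finsupp.mem_support_iff, not_not,
        Finsupp.add_apply, divOf_apply] at hv
      omega

/-- Multiplication of `L(D)` by a subspace of `L(E)` containing a pencil without base points is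
onto `L(D + E)` for large degree of `D`. -/
theorem space_add_le_mul_of_pencil {D E : Divisor K F} {V : Submodule K F}
    (hV : V ≤ riemannRochSpace E) {s t : F} (hs : s ∈ V) (ht : t ∈ V) (hs0 : s ≠ 0) (ht0 : t ≠ 0)
    (hst : ∀ v, v.ord s = -E v ∨ v.ord t = -E v) (hE : 0 ≤ Divisor.degree E)
    (hD : Divisor.degree E + 2 * (genusFF K F : ℤ) - 1 ≤ Divisor.degree D) :
    riemannRochSpace (D + E) ≤ riemannRochSpace D * V := by
  let L := riemannRochSpace D
  let Φ : (↥L × ↥L) →ₗ[K] F :=
    ((LinearMap.mulRight K s).comp L.subtype).coprod ((LinearMap.mulRight K t).comp L.subtype)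
  have hΦ : ∀ x, Φ x = (x.1 : F) * s + (x.2 : F) * t := fun x => rfl
  have hle : LinearMap.range Φ ≤ riemannRochSpace D * V := by
    rintro _ ⟨x, rfl⟩
    rw [hΦ]
    exact add_mem (Submodule.mul_mem_mul x.1.2 hs) (Submodule.mul_mem_mul x.2.2 ht)
  refine le_trans ?_ hle
  have hle2 : LinearMap.range Φ ≤ riemannRochSpace (D + E) :=
    hle.trans (Submodule.mul_le.mpr fun a ha b hb => FFBasic.mul_mem_riemannRochSpace ha (hV hb))
  have hkermem : ∀ x : LinearMap.ker Φ, ((x.1.1 : F) / t) ∈ riemannRochSpace (D - E) := by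
    rintro ⟨⟨a, b⟩, hab⟩
    rw [LinearMap.mem_ker, hΦ] at hab
    rw [mem_riemannRochSpace_iff]
    intro v
    rcases eq_or_ne (a : F) 0 with ha | ha
    · simp [ha]
    right
    have hb0 : (b : F) ≠ 0 := fun hb => by simp [hb, ha, hs0] at hab
    have hab' : (a : F) * s = -((b : F) * t) := eq_neg_of_add_eq_zero_left hab
    have hord : v.ord (a : F) + v.ord s = v.ord (b : F) + v.ord t := by
      rw [← v.ord_mul ha hs0, ← v.ord_mul hb0 ht0, hab']
      simp [Place.ord, Valuation.map_neg]
    have hva := (mem_riemannRochSpace_iff.mp a.2 v).resolve_left ha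
    have hvb := (mem_riemannRochSpace_iff.mp b.2 v).resolve_left hb0
    rw [div_eq_mul_inv, v.ord_mul ha (inv_ne_zero ht0), v.ord_inv, Finsupp.sub_apply]
    rcases hst v with h | h <;> omega
  let κ : LinearMap.ker Φ →ₗ[K] riemannRochSpace (D - E) :=
    { toFun := fun x => ⟨_, hkermem x⟩
      map_add' := fun x y => Subtype.ext (by simp [add_div])
      map_smul' := fun c x => Subtype.ext (by simp [smul_div_assoc]) }
  have hκ : Function.Injective κ := by
    rintro ⟨⟨a, b⟩, hab⟩ ⟨⟨a', b'⟩, hab'⟩ h
    have h1 : (a : F) = a' := by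
      have := congrArg Subtype.val h
      simpa [κ, div_left_inj' ht0] using this
    rw [LinearMap.mem_ker, hΦ] at hab hab'
    have h2 : (b : F) = b' := mul_right_cancel₀ ht0 (by
      simp only at hab hab'
      rw [h1] at hab
      linear_combination hab - hab')
    exact Subtype.ext (Prod.ext (Subtype.ext h1) (Subtype.ext h2))
  have hk := LinearMap.finrank_le_finrank_of_injective hκ
  have hrn := LinearMap.finrank_range_add_finrank_ker Φ
  rw [Module.finrank_prod] at hrn
  have hD' := ell_eq_of_lt (D := D) (by omega)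
  have hDE := ell_eq_of_lt (D := D + E) (by rw [map_add]; omega)
  rw [map_add] at hDE
  have hDsE := ell_eq_of_lt (D := D - E) (by rw [map_sub]; omega)
  rw [map_sub] at hDsE
  refine (Submodule.eq_of_le_of_finrank_le hle2 ?_).ge
  simp only [ell, L] at *
  omega

/-- Multiplication `L(D) ⊗ L(E) → L(D + E)` is surjective for large degrees. -/
theorem span_mul_eq {D E : Divisor K F} (hE : 2 * (genusFF K F : ℤ) ≤ Divisor.degree E)
    (hD : Divisor.degree E + 2 * (genusFF K F : ℤ) - 1 ≤ Divisor.degree D) :
    riemannRochSpace D * riemannRochSpace E = riemannRochSpace (D + E) := by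
  refine le_antisymm
    (Submodule.mul_le.mpr fun a ha b hb => FFBasic.mul_mem_riemannRochSpace ha hb) ?_
  obtain ⟨s, hs, t, ht, hs0, ht0, hst⟩ := exists_basePointFree_pencil hE
  exact space_add_le_mul_of_pencil le_rfl hs ht hs0 ht0 hst (by omega) hD

end FLTAgent.FFRiemannRoch
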