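import Fermat.Agent.FFRiemannRoch.Local

/-!
# Divisors and Riemann–Roch spaces

Divisors of functions `divOf` and `poleDiv`, the dimension `ell` of `L(D)`, its finiteness and
monotonicity, and its invariance under linear equivalence (`ell_add_divOf`). This layer only
assumes `HasPrincipalDivisors`; over a function field `divOf f` and `poleDiv f` have the values of
`FFBasic.divFun f` and `FFBasic.divPos (-FFBasic.divFun f)` (`Deuring.pol f`).
-/

set_option autoImplicit false

noncomputable section

open AlgebraicCurve WithZero

namespace FLTAgent.FFRiemannRoch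

variable {K F : Type*} [Field K] [Field F] [Algebra K F]

section DivisorOrder

theorem divisor_le_induction {P : Divisor K F → Prop} {D E : Divisor K F} (hle : D ≤ E)
    (h0 : P D) (step : ∀ (D' : Divisor K F) (v : Place K F), D ≤ D' → P D' →
      P (D' + Finsupp.single v 1)) : P E := by
  obtain ⟨X, hX, rfl⟩ : ∃ X, 0 ≤ X ∧ E = D + X := ⟨E - D, sub_nonneg.mpr hle, by abel⟩
  clear hle
  induction X using Finsupp.induction with
  | zero => simpa using h0
  | single_add v n X hv _ ih =>
    have hX' : 0 ≤ X := fun w => by
      have := hX w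
      rcases eq_or_ne w v with rfl | hw
      · simp [Finsupp.notMem_support_iff.mp hv]
      · simpa [hw] using this
    have hn : 0 ≤ n := by
      have := hX v
      simpa [Finsupp.notMem_support_iff.mp hv] using this
    obtain ⟨m, rfl⟩ := Int.eq_ofNat_of_zero_le hn
    have key : ∀ m : ℕ, P (D + (Finsupp.single v (m : ℤ) + X)) := by
      intro m
      induction m with
      | zero => simpa using ih hX'
      | succ m ihm =>
        have hle' : D ≤ D + (Finsupp.single v (m : ℤ) + X) := by
          refine le_add_of_nonneg_right (add_nonneg ?_ hX')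
          intro w
          rcases eq_or_ne w v with rfl | hw <;> simp [*]
        have := step _ v hle' ihm
        rwa [Nat.cast_succ, Finsupp.single_add,
          add_right_comm (Finsupp.single v (m : ℤ)), ← add_assoc D]
    exact key m

theorem divisor_step_iff_induction {P : Divisor K F → Prop}
    (step : ∀ (D : Divisor K F) (v : Place K F), P (D + Finsupp.single v 1) ↔ P D)
    (D E : Divisor K F) : P D ↔ P E := by
  have key : ∀ {A B : Divisor K F}, A ≤ B → (P B ↔ P A) := by
    intro A B h
    exact divisor_le_induction (P := fun X => P X ↔ P A) h Iff.rfl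
      fun D' v _ ih => (step D' v).trans ih
  exact (key (le_sup_left : D ≤ D ⊔ E)).symm.trans (key le_sup_right)

theorem degree_nonneg {D : Divisor K F} (h : 0 ≤ D) : 0 ≤ Divisor.degree D := by
  rw [Divisor.degree, Finsupp.liftAddHom_apply]
  exact Finset.sum_nonneg fun v _ => mul_nonneg (h v) (Int.natCast_nonneg _)

theorem degree_le_degree {D E : Divisor K F} (h : D ≤ E) :
    Divisor.degree D ≤ Divisor.degree E := by
  have := degree_nonneg (sub_nonneg.mpr h)
  rw [map_sub] at this
  omega

theorem degree_add_single (D : Divisor K F) (v : Place K F) :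
    Divisor.degree (D + Finsupp.single v 1) = Divisor.degree D + v.deg := by simp

theorem le_add_single (D : Divisor K F) (v : Place K F) : D ≤ D + Finsupp.single v 1 :=
  le_add_of_nonneg_right fun w => by
    rcases eq_or_ne w v with rfl | hw <;> simp [*]

/-- A nonnegative multiple of a place is an effective divisor. -/
theorem single_nonneg (v : Place K F) {n : ℤ} (hn : 0 ≤ n) :
    (0 : Divisor K F) ≤ Finsupp.single v n :=
  fun w => by rcases eq_or_ne w v with rfl | hw <;> simp [*]

end DivisorOrder

section DivOf

variable [HasPrincipalDivisors K F]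

/-- The divisor of a function, zero for the zero function. -/
def divOf (f : F) : Divisor K F :=
  letI := Classical.propDecidable
  if h : f = 0 then 0 else (HasPrincipalDivisors.exists_divisor (K := K) f h).choose

/-- The divisor of a function at a place is its order. -/
theorem divOf_apply (f : F) (v : Place K F) : divOf (K := K) f v = v.ord f := by
  unfold divOf
  split_ifs with h
  · simp [h]
  · exact (HasPrincipalDivisors.exists_divisor (K := K) f h).choose_spec.1 v

/-- Principal divisors have degree `0`. -/
theorem degree_divOf (f : F) : Divisor.degree (divOf (K := K) f) = 0 := by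
  unfold divOf
  split_ifs with h
  · exact map_zero _
  · exact (HasPrincipalDivisors.exists_divisor (K := K) f h).choose_spec.2

/-- The divisor of a product. -/
theorem divOf_mul {f g : F} (hf : f ≠ 0) (hg : g ≠ 0) :
    divOf (K := K) (f * g) = divOf f + divOf g :=
  Finsupp.ext fun v => by simp [divOf_apply, v.ord_mul hf hg]

/-- The divisor of an inverse. -/
theorem divOf_inv (f : F) : divOf (K := K) f⁻¹ = -divOf f :=
  Finsupp.ext fun v => by simp [divOf_apply, v.ord_inv]

theorem divOf_mem_principal {f : F} (hf : f ≠ 0) :
    divOf (K := K) f ∈ Divisor.principal (K := K) (F := F) := ⟨f, hf, divOf_apply f⟩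

/-- The divisor of poles. -/
def poleDiv (f : F) : Divisor K F := -divOf f ⊔ 0

theorem poleDiv_nonneg (f : F) : 0 ≤ poleDiv (K := K) f := le_sup_right

theorem mem_riemannRochSpace_poleDiv (f : F) : f ∈ riemannRochSpace (poleDiv (K := K) f) := by
  rw [mem_riemannRochSpace_iff]
  refine fun v => or_iff_not_imp_left.mpr fun _ => ?_
  have : -divOf (K := K) f v ≤ poleDiv (K := K) f v :=
    (le_sup_left : -divOf (K := K) f ≤ poleDiv f) v
  rw [divOf_apply] at this
  omega

end DivOf

section LSpace

theorem mem_riemannRochSpace_iff_ball {D : Divisor K F} {f : F} :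
    f ∈ riemannRochSpace D ↔ ∀ v, f ∈ ball v (D v) := Iff.rfl

/-- A nonzero `f` is in the space of `D` iff `div f + D` is effective. -/
theorem mem_riemannRochSpace_iff_divOf [HasPrincipalDivisors K F] {D : Divisor K F} {f : F}
    (hf : f ≠ 0) : f ∈ riemannRochSpace D ↔ 0 ≤ divOf f + D := by
  rw [mem_riemannRochSpace_iff]
  refine forall_congr' fun v => ?_
  simp only [or_iff_right hf, Finsupp.coe_zero, Pi.zero_apply, Finsupp.add_apply, divOf_apply]
  omega

theorem eq_zero_of_degree_neg [HasPrincipalDivisors K F] {D : Divisor K F}
    (hD : Divisor.degree D < 0) : riemannRochSpace D = ⊥ := by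
  refine (Submodule.eq_bot_iff _).mpr fun f hf => ?_
  by_contra h0
  have := degree_nonneg ((mem_riemannRochSpace_iff_divOf h0).mp hf)
  rw [map_add, degree_divOf] at this
  omega

/-- The leading coefficient map `L(D + v) → κ(v)`. -/
def residueL (D : Divisor K F) (v : Place K F) :
    riemannRochSpace (D + Finsupp.single v 1) →ₗ[K] v.ResidueField :=
  (residueAt v ((D + Finsupp.single v 1 : Divisor K F) v)).comp
    (Submodule.inclusion (p := riemannRochSpace (D + Finsupp.single v 1))
      (p' := ball v ((D + Finsupp.single v 1 : Divisor K F) v)) fun _ hf => hf v)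

theorem residueL_eq_zero_iff {D : Divisor K F} {v : Place K F}
    (f : riemannRochSpace (D + Finsupp.single v 1)) :
    residueL D v f = 0 ↔ (f : F) ∈ riemannRochSpace D := by
  rw [residueL, LinearMap.comp_apply, residueAt_eq_zero_iff, mem_riemannRochSpace_iff_ball]
  simp only [Finsupp.add_apply, Finsupp.single_eq_same,
    add_sub_cancel_right]
  refine ⟨fun h w => ?_, fun h => h v⟩
  rcases eq_or_ne w v with rfl | hw
  · exact h
  · have : (f : F) ∈ ball w ((D + Finsupp.single v 1 : Divisor K F) w) := f.2 w
    simpa [hw] using this

theorem ker_residueL (D : Divisor K F) (v : Place K F) :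
    LinearMap.ker (residueL D v) = (riemannRochSpace D).comap (Submodule.subtype _) := by
  ext f
  simp [residueL_eq_zero_iff]

/-- The kernel of the leading coefficient map is `L(D)`. -/
def kerResidueLEquiv (D : Divisor K F) (v : Place K F) :
    LinearMap.ker (residueL D v) ≃ₗ[K] riemannRochSpace D :=
  (LinearEquiv.ofEq _ _ (ker_residueL D v)).trans
    (Submodule.comapSubtypeEquivOfLe (FFBasic.riemannRochSpace_mono (le_add_single D v)))

variable (K F) in
/-- `ℓ(D)`. -/
def ell (D : Divisor K F) : ℕ := Module.finrank K (riemannRochSpace D)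

variable [∀ v : Place K F, v.FiniteResidue]

instance instFiniteResidueModule (v : Place K F) : Module.Finite K v.ResidueField :=
  Place.FiniteResidue.finite

theorem finite_step_iff (D : Divisor K F) (v : Place K F) :
    Module.Finite K (riemannRochSpace (D + Finsupp.single v 1)) ↔
      Module.Finite K (riemannRochSpace D) := by
  refine ⟨fun h => ?_, fun h => ?_⟩
  · exact Module.Finite.equiv (kerResidueLEquiv D v)
  · have : Module.Finite K (LinearMap.ker (residueL D v)) :=
      Module.Finite.equiv (kerResidueLEquiv D v).symm
    have : Module.Finite K (riemannRochSpace (D + Finsupp.single v 1) ⧸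
        LinearMap.ker (residueL D v)) :=
      Module.Finite.equiv (residueL D v).quotKerEquivRange.symm
    exact Module.Finite.of_submodule_quotient (LinearMap.ker (residueL D v))

variable [HasPrincipalDivisors K F] [Nonempty (Place K F)]

instance instFiniteRiemannRochSpace (D : Divisor K F) :
    Module.Finite K (riemannRochSpace D) := by
  obtain ⟨v⟩ := ‹Nonempty (Place K F)›
  have hneg : Divisor.degree (-Finsupp.single v 1 : Divisor K F) < 0 := by
    rw [map_neg, Divisor.degree_single]
    have := deg_pos v
    omega
  refine (divisor_step_iff_induction (P := fun X => Module.Finite K (riemannRochSpace X))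
    finite_step_iff D (-Finsupp.single v 1)).mpr ?_
  rw [eq_zero_of_degree_neg hneg]
  infer_instance

theorem ell_step (D : Divisor K F) (v : Place K F) :
    ell K F (D + Finsupp.single v 1)
      = ell K F D + Module.finrank K (LinearMap.range (residueL D v)) := by
  rw [ell, ell, ← LinearMap.finrank_range_add_finrank_ker (residueL D v),
    (kerResidueLEquiv D v).finrank_eq, add_comm]

omit [HasPrincipalDivisors K F] [Nonempty (Place K F)] in
theorem rank_residueL_le (D : Divisor K F) (v : Place K F) :
    Module.finrank K (LinearMap.range (residueL D v)) ≤ v.deg := Submodule.finrank_le _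

theorem ell_mono {D E : Divisor K F} (h : D ≤ E) : ell K F D ≤ ell K F E :=
  Submodule.finrank_mono (FFBasic.riemannRochSpace_mono h)

/-- `deg D - ℓ(D)` is monotone. -/
theorem degree_sub_ell_mono {D E : Divisor K F} (h : D ≤ E) :
    Divisor.degree D - ell K F D ≤ Divisor.degree E - ell K F E := by
  refine divisor_le_induction (P := fun X => Divisor.degree D - ell K F D
    ≤ Divisor.degree X - ell K F X) h le_rfl fun D' v _ ih => ?_
  have := rank_residueL_le D' v
  rw [degree_add_single, ell_step]
  omega

omit [∀ v : Place K F, v.FiniteResidue] [Nonempty (Place K F)] in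
theorem ell_of_degree_neg {D : Divisor K F} (h : Divisor.degree D < 0) : ell K F D = 0 := by
  rw [ell, eq_zero_of_degree_neg h, finrank_bot]

omit [∀ v : Place K F, v.FiniteResidue] [HasPrincipalDivisors K F] [Nonempty (Place K F)] in
/-- A divisor with positive `ℓ` has a nonzero function. -/
theorem exists_ne_zero_of_ell_pos {D : Divisor K F} (h : 0 < ell K F D) :
    ∃ f ∈ riemannRochSpace D, f ≠ 0 := by
  refine Submodule.exists_mem_ne_zero_of_ne_bot fun hbot => ?_
  rw [ell, hbot, finrank_bot] at h
  exact lt_irrefl 0 h

omit [∀ v : Place K F, v.FiniteResidue] [Nonempty (Place K F)] in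
theorem mul_mem_riemannRochSpace_iff {D : Divisor K F} {f g : F} (hf : f ≠ 0) :
    f * g ∈ riemannRochSpace D ↔ g ∈ riemannRochSpace (D + divOf f) := by
  rcases eq_or_ne g 0 with rfl | hg
  · simp
  rw [mem_riemannRochSpace_iff_divOf (mul_ne_zero hf hg), mem_riemannRochSpace_iff_divOf hg,
    divOf_mul hf hg, add_comm (divOf f), add_assoc, add_comm D]

omit [∀ v : Place K F, v.FiniteResidue] [Nonempty (Place K F)] in
/-- Multiplication by `f` identifies `L(D + div f)` with `L(D)`. -/
def mulEquiv (D : Divisor K F) (f : F) (hf : f ≠ 0) :
    riemannRochSpace (D + divOf f) ≃ₗ[K] riemannRochSpace D where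
  toFun g := ⟨f * g, (mul_mem_riemannRochSpace_iff hf).mpr g.2⟩
  invFun g := ⟨f⁻¹ * g, (mul_mem_riemannRochSpace_iff hf).mp (by
    rw [mul_inv_cancel_left₀ hf]; exact g.2)⟩
  map_add' g h := Subtype.ext (mul_add _ _ _)
  map_smul' c g := Subtype.ext (mul_smul_comm c f (g : F))
  left_inv g := Subtype.ext (inv_mul_cancel_left₀ hf _)
  right_inv g := Subtype.ext (mul_inv_cancel_left₀ hf _)

omit [∀ v : Place K F, v.FiniteResidue] [Nonempty (Place K F)] in
/-- `ℓ` is invariant under linear equivalence. -/
theorem ell_add_divOf (D : Divisor K F) {f : F} (hf : f ≠ 0) :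
    ell K F (D + divOf f) = ell K F D := (mulEquiv D f hf).finrank_eq

end LSpace

end FLTAgent.FFRiemannRoch
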