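import Fermat.Agent.FFRiemannRoch.LinearSystems

/-!
# Linear equivalence through Riemann–Roch

Effective representatives of divisor classes (`ell_pos_iff`, `exists_effective_of_genus_le`,
`exists_effective_sub_single`) and the criterion `mem_principal_iff_ell_pos` in degree zero.
-/

set_option autoImplicit false

noncomputable section

open AlgebraicCurve

namespace FLTAgent.FFRiemannRoch

variable {K F : Type*} [Field K] [Field F] [Algebra K F]
  [∀ v : Place K F, v.FiniteResidue] [HasPrincipalDivisors K F] [Nonempty (Place K F)]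

/-- `ℓ(D) > 0` iff `D` is linearly equivalent to an effective divisor. -/
theorem ell_pos_iff {D : Divisor K F} :
    0 < ell K F D ↔ ∃ f : F, f ≠ 0 ∧ 0 ≤ divOf f + D := by
  refine ⟨fun h => ?_, fun ⟨f, hf0, hf⟩ => ?_⟩
  · obtain ⟨f, hf, hf0⟩ := exists_ne_zero_of_ell_pos h
    exact ⟨f, hf0, (mem_riemannRochSpace_iff_divOf hf0).mp hf⟩
  · have hne : riemannRochSpace D ≠ ⊥ := fun hbot => hf0
      ((Submodule.mem_bot K).mp (hbot ▸ (mem_riemannRochSpace_iff_divOf hf0).mpr hf))
    exact Nat.pos_of_ne_zero fun h0 => hne (Submodule.finrank_eq_zero.mp h0)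

/-- In degree zero, principal is the same as `0 < ℓ(D)`. -/
theorem mem_principal_iff_ell_pos {D : Divisor K F} (hD : Divisor.degree D = 0) :
    D ∈ Divisor.principal (K := K) (F := F) ↔ 0 < ell K F D := by
  rw [ell_pos_iff]
  refine ⟨fun ⟨f, hf, hfD⟩ => ⟨f⁻¹, inv_ne_zero hf, fun v => ?_⟩, fun ⟨f, hf, hfD⟩ => ?_⟩
  · simp [divOf_inv, divOf_apply, hfD v]
  · have h := eq_of_le_of_degree_le hfD (by simp [map_add, degree_divOf, hD])
    refine ⟨f⁻¹, inv_ne_zero hf, fun v => ?_⟩
    have hv := DFunLike.congr_fun h v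
    simp only [Finsupp.coe_zero, Pi.zero_apply, Finsupp.add_apply, divOf_apply] at hv
    rw [v.ord_inv]
    omega

variable [HasRiemannBound K F] [IsAlgClosed K]

/-- A divisor of degree at least `g` is linearly equivalent to an effective one. -/
theorem exists_effective_of_genus_le {D : Divisor K F}
    (h : (genusFF K F : ℤ) ≤ Divisor.degree D) : ∃ f : F, f ≠ 0 ∧ 0 ≤ divOf f + D :=
  ell_pos_iff.mp (by have := ell_ge D; omega)

/-- Every class of degree zero is `E - g • v₀` with `E` effective of degree `g`. -/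
theorem exists_effective_sub_single (v₀ : Place K F) {D : Divisor K F}
    (hD : Divisor.degree D = 0) :
    ∃ E : Divisor K F, 0 ≤ E ∧ Divisor.degree E = genusFF K F ∧
      D - (E - Finsupp.single v₀ (genusFF K F : ℤ)) ∈ Divisor.principal (K := K) (F := F) := by
  obtain ⟨f, hf, hE⟩ := exists_effective_of_genus_le
    (D := D + Finsupp.single v₀ (genusFF K F : ℤ)) (by simp [deg_eq_one, hD])
  refine ⟨_, hE, by simp [map_add, degree_divOf, deg_eq_one, hD], ?_⟩
  have : D - (divOf f + (D + Finsupp.single v₀ (genusFF K F : ℤ))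
      - Finsupp.single v₀ (genusFF K F : ℤ)) = -divOf f := by abel
  rw [this]
  exact neg_mem (divOf_mem_principal hf)

end FLTAgent.FFRiemannRoch
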