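import Fermat.Agent.FFRiemannRoch.RiemannBound
import Fermat.Agent.FFRiemannRoch.LinearEquivalence
import Fermat.Agent.FFBasic.Degree

/-!
# Riemann–Roch for function fields in one variable

The instances (`FiniteResidue`, nonempty set of places, `HasRiemannBound`) that make this theory
apply to any `IsFunctionField K F`; import this file to use Riemann–Roch.
-/

set_option autoImplicit false

noncomputable section

open AlgebraicCurve FLTAgent.FFBasic

namespace FLTAgent.FFRiemannRoch

variable {K F : Type*} [Field K] [Field F] [Algebra K F] [IsFunctionField K F]

instance instFiniteResidueOfIsFunctionField (v : Place K F) : v.FiniteResidue :=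
  ⟨place_finite_residueField v⟩

instance instNonemptyPlaceOfIsFunctionField : Nonempty (Place K F) := nonempty_place

instance instHasRiemannBoundOfIsFunctionField : HasRiemannBound K F := by
  obtain ⟨x, hx, hfin⟩ := IsFunctionField.exists_transcendental (K := K) (F := F)
  exact hasRiemannBound_of_finiteDimensional hx

end FLTAgent.FFRiemannRoch
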