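import Fermat.Agent.FFRiemannRoch.Repartition
import Fermat.Prelude.Def_AlgebraicCurve_IsCurveOver
import Mathlib.LinearAlgebra.Dual.Lemmas

/-!
# Weil differentials and duality

`weil D` is the space of Weil differentials bounded by `D`; `exists_duality` gives
`h¹(D) = ℓ(W - D)` in every characteristic. Over an algebraically closed field it yields
`riemann_roch_isAlgClosed`, `exists_canonical` and `ell_eq_of_lt`.
-/

set_option autoImplicit false

noncomputable section

open AlgebraicCurve WithZero

namespace FLTAgent.FFRiemannRoch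

variable {K F : Type*} [Field K] [Field F] [Algebra K F]

/-- Weil differentials bounded by `D`. -/
def weil (D : Divisor K F) : Submodule K (Module.Dual K ↥(repartitions K F)) :=
  (repartitionsOf D ⊔ principalRepartitions K F).dualAnnihilator

theorem mem_weil {D : Divisor K F} {ω : Module.Dual K ↥(repartitions K F)} :
    ω ∈ weil D ↔ (∀ α ∈ repartitionsOf D, ω α = 0) ∧ ∀ f : F, ω (constRep f) = 0 := by
  rw [weil, Submodule.mem_dualAnnihilator]
  refine ⟨fun h => ⟨fun α hα => h α (Submodule.mem_sup_left hα),
    fun f => h _ (Submodule.mem_sup_right (constRep_mem_principal f))⟩, fun h x hx => ?_⟩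
  obtain ⟨α, hα, β, hβ, rfl⟩ := Submodule.mem_sup.mp hx
  obtain ⟨f, rfl⟩ := exists_eq_constRep hβ
  rw [map_add, h.1 α hα, h.2 f, add_zero]

theorem weil_anti {D E : Divisor K F} (h : D ≤ E) : weil E ≤ weil D :=
  Submodule.dualAnnihilator_anti (sup_principal_mono h)

theorem finrank_weil (D : Divisor K F) [Module.Finite K (H1 D)] :
    Module.finrank K (weil D) = h1 K F D := by
  rw [weil, ← (Submodule.dualQuotEquivDualAnnihilator _).finrank_eq,
    Subspace.dual_finrank_eq]
  rfl

theorem repartitionsOf_sup_le (D E : Divisor K F) :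
    repartitionsOf (D ⊔ E) ≤ repartitionsOf D ⊔ repartitionsOf E := by
  classical
  intro α hα
  let β : Place K F → F := fun v => if E v ≤ D v then (α : Place K F → F) v else 0
  have hβ : ∀ v, β v ∈ ball v (D v) := fun v => by
    simp only [β]
    split_ifs with h
    · refine ball_mono v ?_ (hα v)
      simp [h]
    · exact zero_mem _
  let β' : ↥(repartitions K F) := ⟨β, mem_repartitions_of_forall_le_exp D β hβ⟩
  refine Submodule.mem_sup.mpr ⟨β', hβ, α - β', fun v => ?_, by simp⟩
  show (α : Place K F → F) v - β v ∈ ball v (E v)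
  simp only [β]
  split_ifs with h
  · rw [sub_self]; exact zero_mem _
  · rw [sub_zero]
    refine ball_mono v ?_ (hα v)
    simp [le_of_not_ge h]

theorem weil_sup {D E : Divisor K F} {ω : Module.Dual K ↥(repartitions K F)}
    (hD : ω ∈ weil D) (hE : ω ∈ weil E) : ω ∈ weil (D ⊔ E) := by
  rw [mem_weil] at *
  refine ⟨fun α hα => ?_, hD.2⟩
  obtain ⟨β, hβ, γ, hγ, rfl⟩ := Submodule.mem_sup.mp (repartitionsOf_sup_le D E hα)
  rw [map_add, hD.1 β hβ, hE.1 γ hγ, add_zero]

/-- The action of a function on linear forms on repartitions. -/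
def twist (f : F) : Module.Dual K ↥(repartitions K F) →ₗ[K] Module.Dual K ↥(repartitions K F) :=
  (LinearMap.mulLeft K (constRep (K := K) f)).dualMap

theorem twist_apply (f : F) (ω : Module.Dual K ↥(repartitions K F)) (α : ↥(repartitions K F)) :
    twist f ω α = ω (constRep f * α) := rfl

theorem constRep_mul (f g : F) : constRep (K := K) (f * g) = constRep f * constRep g :=
  map_mul _ f g

theorem twist_twist (f g : F) (ω : Module.Dual K ↥(repartitions K F)) :
    twist f (twist g ω) = twist (g * f) ω :=
  LinearMap.ext fun α => by simp only [twist_apply, constRep_mul, mul_assoc]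

theorem twist_one (ω : Module.Dual K ↥(repartitions K F)) : twist (1 : F) ω = ω :=
  LinearMap.ext fun α => by
    rw [twist_apply, show constRep (K := K) (1 : F) = 1 from map_one _, one_mul]

theorem twist_eq_zero_iff {f : F} (hf : f ≠ 0) {ω : Module.Dual K ↥(repartitions K F)} :
    twist f ω = 0 ↔ ω = 0 := by
  refine ⟨fun h => ?_, fun h => by rw [h, map_zero]⟩
  rw [← twist_one ω, ← mul_inv_cancel₀ hf, ← twist_twist, h, map_zero]

/-- `twist` as a linear map in the function. -/
def twistRight (ω : Module.Dual K ↥(repartitions K F)) :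
    F →ₗ[K] Module.Dual K ↥(repartitions K F) where
  toFun f := twist f ω
  map_add' f g := LinearMap.ext fun α => by
    simp only [LinearMap.add_apply, twist_apply, constRep, map_add, add_mul]
  map_smul' c f := LinearMap.ext fun α => by
    simp only [LinearMap.smul_apply, RingHom.id_apply, twist_apply]
    rw [show constRep (K := K) (c • f) = c • constRep f from
      Subtype.ext (funext fun v => rfl), smul_mul_assoc, map_smul]

theorem twistRight_apply (ω : Module.Dual K ↥(repartitions K F)) (f : F) :
    twistRight ω f = twist f ω := rfl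

theorem twist_mem_weil {D E : Divisor K F} {f : F} (hf : f ∈ riemannRochSpace (D - E))
    {ω : Module.Dual K ↥(repartitions K F)} (hω : ω ∈ weil D) : twist f ω ∈ weil E := by
  rw [mem_weil] at *
  refine ⟨fun α hα => hω.1 _ fun v => ?_, fun g => ?_⟩
  · show (f * (α : Place K F → F) v) ∈ ball v (D v)
    simpa using mul_mem_ball v (hf v) (hα v)
  · rw [twist_apply, ← constRep_mul]
    exact hω.2 _

variable [∀ v : Place K F, v.FiniteResidue]

/-- Comparable divisors with degrees in the opposite order are equal. -/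
theorem eq_of_le_of_degree_le {D E : Divisor K F} (h : D ≤ E)
    (hdeg : Divisor.degree E ≤ Divisor.degree D) : D = E := by
  refine le_antisymm h fun v => ?_
  by_contra hlt
  have hle : D + Finsupp.single v 1 ≤ E := fun w => by
    rcases eq_or_ne w v with rfl | hw
    · simp; omega
    · simpa [hw] using h w
  have := degree_le_degree hle
  rw [degree_add_single] at this
  have := deg_pos v
  omega

variable [HasPrincipalDivisors K F] [Nonempty (Place K F)] [HasRiemannBound K F]

/-- A nonzero Weil differential exists. -/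
theorem exists_weil_ne_zero : ∃ (D : Divisor K F), ∃ ω ∈ weil D, ω ≠ 0 := by
  obtain ⟨v⟩ := ‹Nonempty (Place K F)›
  set n : ℕ := ell K F (0 : Divisor K F) + 1
  set D : Divisor K F := -Finsupp.single v (n : ℤ)
  have hrr := riemann_roch D
  have hdeg : Divisor.degree D = -((n : ℤ) * v.deg) := by simp [D]
  have hv : (n : ℤ) * 1 ≤ (n : ℤ) * v.deg :=
    mul_le_mul_of_nonneg_left (by have := deg_pos v; omega) (by omega)
  have hell : ell K F D = 0 := ell_of_degree_neg (by omega)
  refine ⟨D, Submodule.exists_mem_ne_zero_of_ne_bot fun hbot => ?_⟩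
  have := finrank_weil D
  rw [hbot, finrank_bot] at this
  omega

/-- The differentials form a line over the function field. -/
theorem exists_eq_twist {D₁ D₂ : Divisor K F} {ω₁ ω₂ : Module.Dual K ↥(repartitions K F)}
    (h₁ : ω₁ ∈ weil D₁) (h₂ : ω₂ ∈ weil D₂) (h0 : ω₂ ≠ 0) :
    ∃ f : F, ω₁ = twist f ω₂ := by
  classical
  by_contra hne
  obtain ⟨v⟩ := ‹Nonempty (Place K F)›
  set D := D₁ ⊓ D₂
  have hb := riemann_roch D
  set n : ℕ := (2 * ((genusFF K F : ℤ) - Divisor.degree D) + genusFF K F).toNat + 1
  set E : Divisor K F := -Finsupp.single v (n : ℤ)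
  have hdegE : Divisor.degree E = -((n : ℤ) * v.deg) := by simp [E]
  have hv : (n : ℤ) * 1 ≤ (n : ℤ) * v.deg :=
    mul_le_mul_of_nonneg_left (by have := deg_pos v; omega) (by omega)
  have hrrE := riemann_roch E
  have hellE : ell K F E = 0 := ell_of_degree_neg (by omega)
  have hrr := riemann_roch (D - E)
  rw [map_sub] at hrr
  let L := riemannRochSpace (D - E)
  let Φ : (↥L × ↥L) →ₗ[K] Module.Dual K ↥(repartitions K F) :=
    ((twistRight ω₁).comp L.subtype).coprod ((twistRight ω₂).comp L.subtype)
  have hinj : Function.Injective Φ := by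
    rw [← LinearMap.ker_eq_bot, Submodule.eq_bot_iff]
    rintro ⟨a, b⟩ hab
    have hab' : twist (a : F) ω₁ + twist (b : F) ω₂ = 0 := hab
    have ha : (a : F) = 0 := by
      by_contra ha
      refine hne ⟨-(b : F) * (a : F)⁻¹, ?_⟩
      have h2 : twist (a : F) ω₁ = twist (-(b : F)) ω₂ := by
        rw [eq_neg_of_add_eq_zero_left hab', ← twistRight_apply, ← twistRight_apply, map_neg]
      rw [← twist_twist, ← h2, twist_twist, mul_inv_cancel₀ ha, twist_one]
    have hb : (b : F) = 0 := by
      by_contra hb
      rw [ha, show twist (0 : F) ω₁ = 0 from (twistRight ω₁).map_zero, zero_add] at hab'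
      exact h0 ((twist_eq_zero_iff hb).mp hab')
    exact Prod.ext (Subtype.ext ha) (Subtype.ext hb)
  have hrange : ∀ x, Φ x ∈ weil E := fun x => by
    exact add_mem (twist_mem_weil x.1.2 (weil_anti inf_le_left h₁))
      (twist_mem_weil x.2.2 (weil_anti inf_le_right h₂))
  have : Module.Finite K (weil E) :=
    Module.Finite.equiv (Submodule.dualQuotEquivDualAnnihilator _)
  have hle := LinearMap.finrank_le_finrank_of_injective (f := Φ.codRestrict (weil E) hrange)
    fun x y h => hinj (congrArg Subtype.val h)
  rw [Module.finrank_prod, finrank_weil] at hle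
  have hhd : ell K F (D - E) = Module.finrank K ↥L := rfl
  omega

/-- Duality: some divisor `W` has `h¹(D) = ℓ(W - D)` for all `D`. -/
theorem exists_duality : ∃ W : Divisor K F, ∀ D, h1 K F D = ell K F (W - D) := by
  classical
  obtain ⟨D₀, ω, hω, hω0⟩ := exists_weil_ne_zero (K := K) (F := F)
  obtain ⟨N, hN⟩ := exists_bound_h1_eq_zero (K := K) (F := F)
  have hbdd : ∀ D : Divisor K F, ω ∈ weil D → Divisor.degree D ≤ N := fun D hD => by
    by_contra h
    have h0 := finrank_weil D
    rw [hN D (by omega)] at h0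
    have : Module.Finite K (weil D) :=
      Module.Finite.equiv (Submodule.dualQuotEquivDualAnnihilator _)
    rw [Submodule.finrank_eq_zero] at h0
    exact hω0 (by rw [h0] at hD; exact (Submodule.mem_bot K).mp hD)
  obtain ⟨m, ⟨W, hW, rfl⟩, hmax⟩ := Int.exists_greatest_of_bdd
    (P := fun z => ∃ D : Divisor K F, ω ∈ weil D ∧ Divisor.degree D = z)
    ⟨N, fun z ⟨D, hD, hz⟩ => hz ▸ hbdd D hD⟩ ⟨_, D₀, hω, rfl⟩
  have hgreat : ∀ D, ω ∈ weil D → D ≤ W := fun D hD =>
    calc D ≤ W ⊔ D := le_sup_right
      _ = W := (eq_of_le_of_degree_le le_sup_left (hmax _ ⟨_, weil_sup hW hD, rfl⟩)).symm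
  refine ⟨W, fun E => ?_⟩
  let T : ↥(riemannRochSpace (W - E)) →ₗ[K] ↥(weil E) :=
    ((twistRight ω).comp (Submodule.subtype _)).codRestrict (weil E)
      fun f => twist_mem_weil f.2 hW
  have hT : Function.Bijective T := by
    refine ⟨fun a b h => ?_, fun η => ?_⟩
    · have h' : twistRight ω (a : F) = twistRight ω (b : F) := congrArg Subtype.val h
      rw [← sub_eq_zero, ← map_sub, twistRight_apply] at h'
      refine Subtype.ext (sub_eq_zero.mp ?_)
      by_contra h0
      exact hω0 ((twist_eq_zero_iff h0).mp h')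
    · obtain ⟨f, hf⟩ := exists_eq_twist η.2 hW hω0
      have hmem : f ∈ riemannRochSpace (W - E) := by
        rcases eq_or_ne f 0 with rfl | hf0
        · exact zero_mem _
        have hω' : twist f⁻¹ (η : Module.Dual K ↥(repartitions K F)) = ω := by
          rw [hf, twist_twist, mul_inv_cancel₀ hf0, twist_one]
        have hinv : f⁻¹ ∈ riemannRochSpace (E - (E - divOf f)) := by
          rw [sub_sub_cancel, mem_riemannRochSpace_iff_divOf (inv_ne_zero hf0), divOf_inv,
            neg_add_cancel]
        have hle := hgreat _ (hω' ▸ twist_mem_weil hinv η.2)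
        rw [mem_riemannRochSpace_iff_divOf hf0]
        intro v
        have := hle v
        simp only [Finsupp.sub_apply] at this
        simp only [Finsupp.coe_zero, Pi.zero_apply, Finsupp.add_apply, Finsupp.sub_apply]
        omega
      exact ⟨⟨f, hmem⟩, Subtype.ext hf.symm⟩
  rw [← finrank_weil]
  exact (LinearEquiv.ofBijective T hT).finrank_eq.symm

theorem degree_of_duality {W : Divisor K F} (hW : ∀ D, h1 K F D = ell K F (W - D)) :
    Divisor.degree W = 2 * (genusFF K F : ℤ) - 2 * ell K F (0 : Divisor K F) := by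
  have h0 : h1 K F (0 : Divisor K F) = genusFF K F := rfl
  have h1' := hW 0
  have h2' := hW W
  rw [sub_zero, h0] at h1'
  rw [sub_self] at h2'
  have := riemann_roch W
  omega

section AlgClosed

variable [IsAlgClosed K]

omit [HasPrincipalDivisors K F] [Nonempty (Place K F)] [HasRiemannBound K F] in
/-- Over an algebraically closed field every place has degree one. -/
theorem deg_eq_one (v : Place K F) : v.deg = 1 := v.deg_eq_one_of_isAlgClosed_of_finite

omit [HasPrincipalDivisors K F] [Nonempty (Place K F)] [HasRiemannBound K F] in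
theorem exists_sub_algebraMap_mem_ball (v : Place K F) {f : F} (hf : f ∈ ball v 0) :
    ∃ c : K, f - algebraMap K F c ∈ ball v (-1) := by
  obtain ⟨c, hc⟩ := IsAlgClosed.algebraMap_bijective_of_isIntegral (k := K) (K := v.ResidueField)
    |>.2 (residueAt v 0 ⟨f, hf⟩)
  have hmem : f - algebraMap K F c ∈ ball v 0 := sub_mem hf (algebraMap_mem_ball v le_rfl c)
  refine ⟨c, ?_⟩
  have h0 : residueAt v 0 ⟨_, hmem⟩ = 0 := by
    rw [show (⟨_, hmem⟩ : ball v 0) = ⟨f, hf⟩ - ⟨algebraMap K F c, algebraMap_mem_ball v le_rfl c⟩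
      from rfl, map_sub, sub_eq_zero, ← hc, residueAt_apply]
    exact congrArg _ (Subtype.ext (by simp))
  simpa using (residueAt_eq_zero_iff v _).mp h0

omit [HasRiemannBound K F] in
theorem eq_algebraMap_of_mem_riemannRochSpace_zero {f : F}
    (hf : f ∈ riemannRochSpace (0 : Divisor K F)) : ∃ c : K, f = algebraMap K F c := by
  obtain ⟨v⟩ := ‹Nonempty (Place K F)›
  obtain ⟨c, hc⟩ := exists_sub_algebraMap_mem_ball v (f := f) (by simpa [mem_ball] using hf v)
  have hneg : Divisor.degree (-Finsupp.single v 1 : Divisor K F) < 0 := by simp [deg_eq_one]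
  have hmem : f - algebraMap K F c ∈ riemannRochSpace (-Finsupp.single v 1 : Divisor K F) := by
    intro w
    rcases eq_or_ne w v with rfl | hw
    · simpa [mem_ball] using hc
    · have : f - algebraMap K F c ∈ ball w 0 :=
        sub_mem (by simpa [mem_ball] using hf w) (algebraMap_mem_ball w le_rfl c)
      simpa [hw, mem_ball] using this
  rw [eq_zero_of_degree_neg hneg, Submodule.mem_bot, sub_eq_zero] at hmem
  exact ⟨c, hmem⟩

omit [HasRiemannBound K F] in
theorem ell_zero : ell K F (0 : Divisor K F) = 1 := by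
  have h1mem : (1 : F) ∈ riemannRochSpace (0 : Divisor K F) :=
    fun v => by simp
  refine finrank_eq_one ⟨1, h1mem⟩ (fun h => one_ne_zero (congrArg Subtype.val h)) fun w => ?_
  obtain ⟨c, hc⟩ := eq_algebraMap_of_mem_riemannRochSpace_zero w.2
  exact ⟨c, Subtype.ext (by rw [hc, SetLike.val_smul, Algebra.smul_def, mul_one])⟩

/-- Riemann–Roch over an algebraically closed field. -/
theorem riemann_roch_isAlgClosed (D : Divisor K F) :
    (ell K F D : ℤ) - h1 K F D = Divisor.degree D + 1 - genusFF K F := by
  have := riemann_roch D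
  rw [ell_zero] at this
  exact_mod_cast this

/-- Riemann's theorem. -/
theorem exists_bound_ell : ∃ N : ℤ, ∀ D : Divisor K F, N ≤ Divisor.degree D →
    (ell K F D : ℤ) = Divisor.degree D + 1 - genusFF K F := by
  obtain ⟨N, hN⟩ := exists_bound_h1_eq_zero (K := K) (F := F)
  refine ⟨N, fun D hD => ?_⟩
  have := riemann_roch_isAlgClosed D
  rw [hN D hD] at this
  simpa using this

/-- A canonical divisor: `h¹(D) = ℓ(W - D)` and `deg W = 2g - 2`. -/
theorem exists_canonical : ∃ W : Divisor K F, (∀ D, h1 K F D = ell K F (W - D)) ∧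
    Divisor.degree W = 2 * (genusFF K F : ℤ) - 2 := by
  obtain ⟨W, hW⟩ := exists_duality (K := K) (F := F)
  refine ⟨W, hW, ?_⟩
  rw [degree_of_duality hW, ell_zero]
  norm_num

theorem h1_eq_zero_of_lt {D : Divisor K F} (h : 2 * (genusFF K F : ℤ) - 2 < Divisor.degree D) :
    h1 K F D = 0 := by
  obtain ⟨W, hW, hdeg⟩ := exists_canonical (K := K) (F := F)
  rw [hW]
  exact ell_of_degree_neg (by rw [map_sub]; omega)

/-- Riemann–Roch for divisors of degree above `2g - 2`. -/
theorem ell_eq_of_lt {D : Divisor K F} (h : 2 * (genusFF K F : ℤ) - 2 < Divisor.degree D) :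
    (ell K F D : ℤ) = Divisor.degree D + 1 - genusFF K F := by
  have := riemann_roch_isAlgClosed D
  rw [h1_eq_zero_of_lt h] at this
  simpa using this

/-- Riemann's inequality. -/
theorem ell_ge (D : Divisor K F) : Divisor.degree D + 1 - genusFF K F ≤ ell K F D := by
  have := riemann_roch_isAlgClosed D
  omega

end AlgClosed

end FLTAgent.FFRiemannRoch
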