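import Fermat.Agent.FFBasic.Approximation
import Fermat.Prelude.Def_AlgebraicCurve_Repartitions
import Mathlib.LinearAlgebra.FiniteDimensional.Lemmas

/-!
# Local facts at a place of a function field

The pole filtration `ball v n` of `F` at a place `v` (`= FFBasic.filt v (-n)`, `ball_eq_filt`), the
residue map `residueAt` on each of its steps (`FFBasic.res` after multiplying by `unif v ^ n`), and
weak approximation in terms of balls.
-/

set_option autoImplicit false

noncomputable section

open AlgebraicCurve WithZero IsDedekindDomain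

namespace FLTAgent.FFRiemannRoch

variable {K F : Type*} [Field K] [Field F] [Algebra K F]

section OnePlace

variable (v : Place K F)

/-- A nonzero element has order `≥ 0` iff it is in the valuation ring. -/
theorem ord_nonneg_iff {f : F} (hf : f ≠ 0) : 0 ≤ v.ord f ↔ f ∈ v.toValuationSubring :=
  (FFBasic.mem_iff_ord_nonneg v hf).symm

/-- Elements with pole order at most `n` at `v`. -/
def ball (n : ℤ) : Submodule K F where
  carrier := {f | v.adicValuation f ≤ exp n}
  zero_mem' := by simp
  add_mem' {f g} hf hg := by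
    show v.adicValuation (f + g) ≤ exp n
    exact (Valuation.map_add v.adicValuation f g).trans (max_le hf hg)
  smul_mem' c f hf := by
    show v.adicValuation (c • f) ≤ exp n
    rw [Algebra.smul_def, map_mul]
    exact (mul_le_of_le_one_left' (v.adicValuation_algebraMap_le_one c)).trans hf

theorem mem_ball {n : ℤ} {f : F} : f ∈ ball v n ↔ v.adicValuation f ≤ exp n := Iff.rfl

/-- The ball of radius `n` consists of `0` and the elements of order `≥ -n`. -/
theorem mem_ball_iff_ord {n : ℤ} {f : F} : f ∈ ball v n ↔ f = 0 ∨ -n ≤ v.ord f :=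
  v.adicValuation_le_exp_iff

theorem ball_mono {m n : ℤ} (h : m ≤ n) : ball v m ≤ ball v n :=
  fun _ hf => le_trans hf (exp_le_exp.mpr h)

theorem mul_mem_ball {m n : ℤ} {f g : F} (hf : f ∈ ball v m) (hg : g ∈ ball v n) :
    f * g ∈ ball v (m + n) := by
  rw [mem_ball, map_mul, exp_add]
  exact mul_le_mul' hf hg

theorem algebraMap_mem_ball {n : ℤ} (hn : 0 ≤ n) (c : K) : algebraMap K F c ∈ ball v n :=
  (v.adicValuation_algebraMap_le_one c).trans (by rw [← exp_zero]; exact exp_le_exp.mpr hn)

theorem exists_uniformizer : ∃ π : F, π ≠ 0 ∧ v.adicValuation π = exp (-1 : ℤ) := by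
  obtain ⟨π, hπ⟩ := IsDiscreteValuationRing.exists_irreducible v.toValuationSubring
  exact ⟨(π : F), by simpa [ne_eq, ZeroMemClass.coe_eq_zero] using hπ.ne_zero,
    v.adicValuation_coe_irreducible hπ⟩

/-- A fixed uniformizer. -/
def unif : F := (exists_uniformizer v).choose

theorem unif_ne_zero : unif v ≠ 0 := (exists_uniformizer v).choose_spec.1

theorem adicValuation_unif : v.adicValuation (unif v) = exp (-1 : ℤ) :=
  (exists_uniformizer v).choose_spec.2

theorem adicValuation_unif_zpow (n : ℤ) : v.adicValuation (unif v ^ n) = exp (-n) := by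
  rw [map_zpow₀, adicValuation_unif, ← exp_zsmul]
  simp

theorem ord_unif_zpow (n : ℤ) : v.ord (unif v ^ n) = n := by
  rw [Place.ord, adicValuation_unif_zpow, log_exp, neg_neg]

theorem mul_unif_zpow_mem {n : ℤ} {f : F} (hf : f ∈ ball v n) :
    f * unif v ^ n ∈ v.toValuationSubring := by
  rw [FFBasic.mem_iff_adicValuation_le_one, map_mul, adicValuation_unif_zpow]
  calc v.adicValuation f * exp (-n) ≤ exp n * exp (-n) := mul_le_mul' hf le_rfl
    _ = 1 := by rw [← exp_add, add_neg_cancel, exp_zero]

/-- The leading coefficient at pole order `n`. -/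
def residueAt (n : ℤ) : ball v n →ₗ[K] v.ResidueField where
  toFun f := IsLocalRing.residue _ ⟨(f : F) * unif v ^ n, mul_unif_zpow_mem v f.2⟩
  map_add' f g := by
    rw [← map_add]
    exact congrArg _ (Subtype.ext (add_mul _ _ _))
  map_smul' c f := by
    rw [RingHom.id_apply, Algebra.smul_def]
    show _ = IsLocalRing.residue _ (algebraMap K v.toValuationSubring c) * IsLocalRing.residue _ _
    rw [← map_mul]
    refine congrArg _ (Subtype.ext ?_)
    show (c • (f : F)) * unif v ^ n = algebraMap K F c * ((f : F) * unif v ^ n)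
    rw [Algebra.smul_def, mul_assoc]

theorem residueAt_apply {n : ℤ} (f : ball v n) :
    residueAt v n f = IsLocalRing.residue _ ⟨(f : F) * unif v ^ n, mul_unif_zpow_mem v f.2⟩ := rfl

theorem residueAt_eq_zero_iff {n : ℤ} (f : ball v n) :
    residueAt v n f = 0 ↔ (f : F) ∈ ball v (n - 1) := by
  rw [residueAt_apply, IsLocalRing.residue_eq_zero_iff, IsLocalRing.mem_maximalIdeal,
    mem_nonunits_iff, ← v.adicValuation_coe_eq_one_iff]
  rcases eq_or_ne (f : F) 0 with h0 | h0
  · simp [h0]
  have hmem := (mem_ball_iff_ord v).mp f.2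
  rw [map_mul, adicValuation_unif_zpow, v.adicValuation_eq_exp_neg_ord h0, ← exp_add, ← exp_zero,
    exp_inj, mem_ball_iff_ord]
  simp only [h0, false_or] at hmem ⊢
  omega

theorem residueAt_surjective (n : ℤ) : Function.Surjective (residueAt v n) := by
  intro r
  obtain ⟨a, rfl⟩ := IsLocalRing.residue_surjective r
  have hmem : (a : F) * unif v ^ (-n) ∈ ball v n := by
    rw [mem_ball, map_mul, adicValuation_unif_zpow, neg_neg]
    exact mul_le_of_le_one_left' (v.adicValuation_le_one_of_mem a.2)
  refine ⟨⟨_, hmem⟩, ?_⟩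
  rw [residueAt_apply]
  refine congrArg _ (Subtype.ext ?_)
  show (a : F) * unif v ^ (-n) * unif v ^ n = a
  rw [mul_assoc, ← zpow_add₀ (unif_ne_zero v), neg_add_cancel, zpow_zero, mul_one]

theorem deg_pos [Module.Finite K v.ResidueField] : 0 < v.deg := Module.finrank_pos

/-- The ball of radius `n` is the step `-n` of the filtration of `FFBasic`. -/
theorem ball_eq_filt (n : ℤ) : ball v n = FFBasic.filt v (-n) :=
  SetLike.ext fun _ => (mem_ball_iff_ord v).trans FFBasic.mem_filt.symm

end OnePlace

/-- Weak approximation at finitely many places. -/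
theorem exists_approx (S : Finset (Place K F)) (a : Place K F → F) (n : Place K F → ℤ) :
    ∃ y : F, ∀ v ∈ S, y - a v ∈ ball v (n v) := by
  obtain ⟨y, hy⟩ := FFBasic.exists_approx S a fun v => -n v
  exact ⟨y, fun v hv => (ball_eq_filt v (n v)).symm ▸ hy v hv⟩

end FLTAgent.FFRiemannRoch
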