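import Fermat.Agent.FFRiemannRoch.LSpace

/-!
# Repartitions and `H¹`

Under the hypothesis `HasRiemannBound` (`deg D - ℓ(D)` is bounded) `H¹(D)` is finite dimensional
(`instFiniteH1`); this gives `riemann_roch` with `h1` and Riemann's theorem
`exists_bound_h1_eq_zero`.
-/

set_option autoImplicit false

noncomputable section

open AlgebraicCurve WithZero

namespace FLTAgent.FFRiemannRoch

variable (K F : Type*) [Field K] [Field F] [Algebra K F]

/-- `deg D - ℓ(D)` is bounded above. -/
class HasRiemannBound : Prop where
  exists_bound : ∃ γ : ℤ, ∀ D : Divisor K F, Divisor.degree D - ell K F D ≤ γ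

/-- `h¹(D)`. -/
def h1 (D : Divisor K F) : ℕ := Module.finrank K (H1 D)

variable {K F}

theorem mem_repartitionsOf_iff_ball {D : Divisor K F} {α : ↥(repartitions K F)} :
    α ∈ repartitionsOf D ↔ ∀ v, (α : Place K F → F) v ∈ ball v (D v) := Iff.rfl

/-- The constant repartition of a function. -/
def constRep (f : F) : ↥(repartitions K F) := algebraMap F _ f

@[simp] theorem constRep_apply (f : F) (v : Place K F) :
    (constRep (K := K) f : Place K F → F) v = f := rfl

theorem constRep_mem_principal (f : F) : constRep f ∈ principalRepartitions K F :=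
  mem_principalRepartitions_iff.mpr ⟨f, rfl⟩

theorem exists_eq_constRep {α : ↥(repartitions K F)} (h : α ∈ principalRepartitions K F) :
    ∃ f, α = constRep f := by
  obtain ⟨f, hf⟩ := mem_principalRepartitions_iff.mp h
  exact ⟨f, Subtype.ext hf⟩

theorem exists_mem_repartitionsOf [HasPrincipalDivisors K F] (α : ↥(repartitions K F)) :
    ∃ D : Divisor K F, 0 ≤ D ∧ α ∈ repartitionsOf D := by
  obtain ⟨α, hα⟩ := α
  show ∃ D : Divisor K F, 0 ≤ D ∧ ∀ v, α v ∈ ball v (D v)
  induction hα using Algebra.adjoin_induction with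
  | mem α hα =>
    classical
    refine ⟨∑ v ∈ hα.toFinset, Finsupp.single v (max (-v.ord (α v)) 0),
      Finset.sum_nonneg fun v _ => single_nonneg v (le_max_right _ _), fun v => ?_⟩
    rw [Finset.sum_apply']
    simp only [Finsupp.single_apply, Finset.sum_ite_eq', Set.Finite.mem_toFinset,
      Set.mem_ofPred_eq]
    split_ifs with h
    · rw [mem_ball, exp_zero]; exact h
    · refine (mem_ball_iff_ord v).mpr (Or.inr ?_)
      have := le_max_left (-v.ord (α v)) 0
      linarith
  | algebraMap f =>
    refine ⟨poleDiv f, poleDiv_nonneg f, fun v => ?_⟩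
    exact mem_riemannRochSpace_poleDiv f v
  | add α β _ _ hα hβ =>
    obtain ⟨D, hD0, hD⟩ := hα
    obtain ⟨E, hE0, hE⟩ := hβ
    refine ⟨D ⊔ E, le_sup_of_le_left hD0, fun v => add_mem
      (ball_mono v ((le_sup_left : D ≤ D ⊔ E) v) (hD v))
      (ball_mono v ((le_sup_right : E ≤ D ⊔ E) v) (hE v))⟩
  | mul α β _ _ hα hβ =>
    obtain ⟨D, hD0, hD⟩ := hα
    obtain ⟨E, hE0, hE⟩ := hβ
    exact ⟨D + E, add_nonneg hD0 hE0, fun v => mul_mem_ball v (hD v) (hE v)⟩

/-- The component at `v` of a repartition in `A(D)`. -/
def component (D : Divisor K F) (v : Place K F) : repartitionsOf D →ₗ[K] ball v (D v) where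
  toFun α := ⟨((α : ↥(repartitions K F)) : Place K F → F) v, α.2 v⟩
  map_add' _ _ := rfl
  map_smul' _ _ := rfl

/-- The leading coefficient map on repartitions. -/
def residueA (D : Divisor K F) (v : Place K F) :
    repartitionsOf (D + Finsupp.single v 1) →ₗ[K] v.ResidueField :=
  (residueAt v ((D + Finsupp.single v 1 : Divisor K F) v)).comp
    (component (D + Finsupp.single v 1) v)

theorem residueA_eq_zero_iff {D : Divisor K F} {v : Place K F}
    (α : repartitionsOf (D + Finsupp.single v 1)) :
    residueA D v α = 0 ↔ (α : ↥(repartitions K F)) ∈ repartitionsOf D := by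
  rw [residueA, LinearMap.comp_apply, residueAt_eq_zero_iff, mem_repartitionsOf_iff_ball]
  simp only [Finsupp.add_apply, Finsupp.single_eq_same, add_sub_cancel_right]
  refine ⟨fun h w => ?_, fun h => h v⟩
  rcases eq_or_ne w v with rfl | hw
  · exact h
  · have : ((α : ↥(repartitions K F)) : Place K F → F) w ∈
        ball w ((D + Finsupp.single v 1 : Divisor K F) w) := α.2 w
    simpa [hw] using this

theorem residueA_surjective (D : Divisor K F) (v : Place K F) :
    Function.Surjective (residueA D v) := by
  classical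
  intro r
  obtain ⟨f, hf⟩ := residueAt_surjective v ((D + Finsupp.single v 1 : Divisor K F) v) r
  let α : Place K F → F := Function.update 0 v (f : F)
  have hα : ∀ w, α w ∈ ball w ((D + Finsupp.single v 1 : Divisor K F) w) := fun w => by
    rcases eq_or_ne w v with rfl | hw
    · simpa [α] using f.2
    · simp [α, hw]
  refine ⟨⟨⟨α, mem_repartitions_of_forall_le_exp _ α hα⟩, hα⟩, ?_⟩
  rw [← hf]
  exact congrArg (residueAt v _) (Subtype.ext (show α v = (f : F) by simp [α]))

/-- The class in `H¹(D)` of a repartition in `A(D + v)`. -/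
def toH1 (D : Divisor K F) (v : Place K F) :
    repartitionsOf (D + Finsupp.single v 1) →ₗ[K] H1 D :=
  (repartitionsOf D ⊔ principalRepartitions K F).mkQ.comp
    (repartitionsOf (D + Finsupp.single v 1)).subtype

theorem ker_residueA_le (D : Divisor K F) (v : Place K F) :
    LinearMap.ker (residueA D v) ≤ LinearMap.ker (toH1 D v) := fun α hα => by
  rw [LinearMap.mem_ker, residueA_eq_zero_iff] at hα
  rw [LinearMap.mem_ker]
  exact (Submodule.Quotient.mk_eq_zero _).mpr (Submodule.mem_sup_left hα)

/-- The connecting map `κ(v) → H¹(D)`. -/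
def connect (D : Divisor K F) (v : Place K F) : v.ResidueField →ₗ[K] H1 D :=
  (toH1 D v).comp ((residueA D v).exists_rightInverse_of_surjective
    (LinearMap.range_eq_top.mpr (residueA_surjective D v))).choose

theorem connect_residueA {D : Divisor K F} {v : Place K F}
    (α : repartitionsOf (D + Finsupp.single v 1)) :
    connect D v (residueA D v α) = Submodule.Quotient.mk (α : ↥(repartitions K F)) := by
  have hs := ((residueA D v).exists_rightInverse_of_surjective
    (LinearMap.range_eq_top.mpr (residueA_surjective D v))).choose_spec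
  show toH1 D v _ = toH1 D v α
  rw [← sub_eq_zero, ← map_sub, ← LinearMap.mem_ker]
  refine ker_residueA_le D v ?_
  rw [LinearMap.mem_ker, map_sub, sub_eq_zero, ← LinearMap.comp_apply, hs, LinearMap.id_apply]

theorem ker_connect (D : Divisor K F) (v : Place K F) :
    LinearMap.ker (connect D v) = LinearMap.range (residueL D v) := by
  ext r
  obtain ⟨α, rfl⟩ := residueA_surjective D v r
  rw [LinearMap.mem_ker, connect_residueA, Submodule.Quotient.mk_eq_zero, Submodule.mem_sup,
    LinearMap.mem_range]
  constructor
  · rintro ⟨β, hβ, γ, hγ, hsum⟩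
    obtain ⟨f, rfl⟩ := exists_eq_constRep hγ
    have hf : constRep f ∈ repartitionsOf (D + Finsupp.single v 1) := by
      rw [show constRep f = (α : ↥(repartitions K F)) - β from eq_sub_of_add_eq' hsum]
      exact sub_mem α.2 (repartitionsOf_mono (le_add_single D v) hβ)
    refine ⟨⟨f, hf⟩, ?_⟩
    have h0 : residueA D v ⟨β, repartitionsOf_mono (le_add_single D v) hβ⟩ = 0 :=
      (residueA_eq_zero_iff _).mpr hβ
    have : α = ⟨β, repartitionsOf_mono (le_add_single D v) hβ⟩ + ⟨constRep f, hf⟩ :=
      Subtype.ext hsum.symm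
    rw [this, map_add, h0, zero_add]
    rfl
  · rintro ⟨f, hf⟩
    have hf' : constRep (f : F) ∈ repartitionsOf (D + Finsupp.single v 1) := f.2
    refine ⟨(α : ↥(repartitions K F)) - constRep (f : F), ?_, constRep (f : F),
      constRep_mem_principal _, sub_add_cancel _ _⟩
    refine (residueA_eq_zero_iff (α - ⟨constRep (f : F), hf'⟩)).mp ?_
    refine ((residueA D v).map_sub α ⟨constRep (f : F), hf'⟩).trans (sub_eq_zero.mpr ?_)
    rw [← hf]
    rfl

theorem sup_principal_mono {D E : Divisor K F} (h : D ≤ E) :
    repartitionsOf D ⊔ principalRepartitions K F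
      ≤ repartitionsOf E ⊔ principalRepartitions K F :=
  sup_le_sup_right (repartitionsOf_mono h) _

/-- The map `H¹(D) → H¹(E)` for `D ≤ E`. -/
def h1Map {D E : Divisor K F} (h : D ≤ E) : H1 D →ₗ[K] H1 E :=
  Submodule.factor (sup_principal_mono h)

theorem h1Map_mk {D E : Divisor K F} (h : D ≤ E) (α : ↥(repartitions K F)) :
    h1Map h (Submodule.Quotient.mk α) = Submodule.Quotient.mk α := rfl

theorem h1Map_surjective {D E : Divisor K F} (h : D ≤ E) : Function.Surjective (h1Map h) :=
  fun x => by
    obtain ⟨α, rfl⟩ := Submodule.Quotient.mk_surjective _ x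
    exact ⟨Submodule.Quotient.mk α, rfl⟩

theorem range_connect (D : Divisor K F) (v : Place K F) :
    LinearMap.range (connect D v) = LinearMap.ker (h1Map (le_add_single D v)) := by
  ext x
  obtain ⟨α, rfl⟩ := Submodule.Quotient.mk_surjective _ x
  rw [LinearMap.mem_ker, h1Map_mk, Submodule.Quotient.mk_eq_zero, LinearMap.mem_range]
  constructor
  · rintro ⟨r, hr⟩
    obtain ⟨β, rfl⟩ := residueA_surjective D v r
    rw [connect_residueA, Submodule.Quotient.eq] at hr
    have : α = (β : ↥(repartitions K F)) - ((β : ↥(repartitions K F)) - α) := by abel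
    rw [this]
    exact sub_mem (Submodule.mem_sup_left β.2) (sup_principal_mono (le_add_single D v) hr)
  · intro h
    obtain ⟨β, hβ, γ, hγ, rfl⟩ := Submodule.mem_sup.mp h
    refine ⟨residueA D v ⟨β, hβ⟩, ?_⟩
    rw [connect_residueA, Submodule.Quotient.eq]
    simpa using Submodule.mem_sup_right (neg_mem hγ)

variable [∀ v : Place K F, v.FiniteResidue]

theorem finite_h1_step_iff (D : Divisor K F) (v : Place K F) :
    Module.Finite K (H1 (D + Finsupp.single v 1)) ↔ Module.Finite K (H1 D) := by
  refine ⟨fun h => ?_, fun h => Module.Finite.of_surjective _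
    (h1Map_surjective (le_add_single D v))⟩
  have : Module.Finite K (LinearMap.ker (h1Map (le_add_single D v))) := by
    rw [← range_connect]
    infer_instance
  have : Module.Finite K (H1 D ⧸ LinearMap.ker (h1Map (le_add_single D v))) :=
    Module.Finite.equiv ((h1Map (le_add_single D v)).quotKerEquivOfSurjective
      (h1Map_surjective _)).symm
  exact Module.Finite.of_submodule_quotient (LinearMap.ker (h1Map (le_add_single D v)))

theorem rank_residueL_add_rank_connect (D : Divisor K F) (v : Place K F) :
    Module.finrank K (LinearMap.range (residueL D v))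
      + Module.finrank K (LinearMap.range (connect D v)) = v.deg := by
  rw [← ker_connect, add_comm]
  exact LinearMap.finrank_range_add_finrank_ker (connect D v)

omit [∀ (v : Place K F), v.FiniteResidue] in
theorem h1_step (D : Divisor K F) (v : Place K F) [Module.Finite K (H1 D)] :
    h1 K F D = h1 K F (D + Finsupp.single v 1)
      + Module.finrank K (LinearMap.range (connect D v)) := by
  rw [h1, h1, range_connect, ← LinearMap.finrank_range_add_finrank_ker (h1Map (le_add_single D v)),
    LinearMap.range_eq_top.mpr (h1Map_surjective _), finrank_top]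

variable [HasPrincipalDivisors K F] [Nonempty (Place K F)] [HasRiemannBound K F]

/-- Somewhere `H¹` vanishes. -/
theorem exists_h1_vanish : ∃ D₀ : Divisor K F,
    repartitionsOf D₀ ⊔ principalRepartitions K F = ⊤ := by
  obtain ⟨γ, hγ⟩ := HasRiemannBound.exists_bound (K := K) (F := F)
  obtain ⟨m, ⟨D₀, hD₀⟩, hmax⟩ := Int.exists_greatest_of_bdd
    (P := fun z => ∃ D : Divisor K F, Divisor.degree D - ell K F D = z)
    ⟨γ, fun z ⟨D, hD⟩ => hD ▸ hγ D⟩ ⟨_, 0, rfl⟩
  have hstep : ∀ E, D₀ ≤ E → repartitionsOf E ≤ repartitionsOf D₀ ⊔ principalRepartitions K F := by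
    intro E hE
    refine divisor_le_induction (P := fun E => repartitionsOf E ≤
      repartitionsOf D₀ ⊔ principalRepartitions K F) hE le_sup_left fun E v hle ih => ?_
    have h1 := degree_sub_ell_mono hle
    have h2 := hmax _ ⟨E + Finsupp.single v 1, rfl⟩
    have h3 := degree_sub_ell_mono (le_add_single E v)
    have h4 := rank_residueL_add_rank_connect E v
    have h5 := ell_step E v
    rw [degree_add_single] at h2 h3
    have hzero : connect E v = 0 := by
      rw [← LinearMap.range_eq_bot, ← Submodule.finrank_eq_zero (R := K)]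
      omega
    intro α hα
    have : (Submodule.Quotient.mk α : H1 E) = 0 := by
      rw [← connect_residueA ⟨α, hα⟩, hzero, LinearMap.zero_apply]
    rw [Submodule.Quotient.mk_eq_zero] at this
    exact sup_le ih le_sup_right this
  refine ⟨D₀, top_unique fun α _ => ?_⟩
  obtain ⟨D, -, hD⟩ := exists_mem_repartitionsOf α
  exact hstep (D₀ ⊔ D) le_sup_left (repartitionsOf_mono le_sup_right hD)

instance instFiniteH1 (D : Divisor K F) : Module.Finite K (H1 D) := by
  obtain ⟨D₀, hD₀⟩ := exists_h1_vanish (K := K) (F := F)
  refine (divisor_step_iff_induction (P := fun X => Module.Finite K (H1 X))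
    finite_h1_step_iff D D₀).mpr ?_
  have : Subsingleton (H1 D₀) := Submodule.Quotient.subsingleton_iff.mpr hD₀
  infer_instance

/-- The Euler characteristic is `deg D` plus a constant. -/
theorem riemann_roch (D : Divisor K F) :
    (ell K F D : ℤ) - h1 K F D = Divisor.degree D + ell K F (0 : Divisor K F) - genusFF K F := by
  have key := (divisor_step_iff_induction
    (P := fun X => (ell K F X : ℤ) - h1 K F X - Divisor.degree X
      = ell K F (0 : Divisor K F) - h1 K F (0 : Divisor K F))
    (fun X v => by
      have h1 := h1_step X v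
      have h2 := rank_residueL_add_rank_connect X v
      have h3 := ell_step X v
      rw [degree_add_single]
      omega) D 0).mpr (by simp)
  have : h1 K F (0 : Divisor K F) = genusFF K F := rfl
  rw [this] at key
  linarith

theorem h1_anti {D E : Divisor K F} (h : D ≤ E) : h1 K F E ≤ h1 K F D :=
  LinearMap.finrank_le_finrank_of_surjective (h1Map_surjective h)

omit [∀ v : Place K F, v.FiniteResidue] [Nonempty (Place K F)] [HasPrincipalDivisors K F]
  [HasRiemannBound K F] in
theorem h1_eq_zero_of_sup_eq_top {D : Divisor K F}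
    (h : repartitionsOf D ⊔ principalRepartitions K F = ⊤) : h1 K F D = 0 := by
  have : Subsingleton (H1 D) := Submodule.Quotient.subsingleton_iff.mpr h
  exact Module.finrank_zero_of_subsingleton

/-- Riemann's theorem. -/
theorem exists_bound_h1_eq_zero :
    ∃ N : ℤ, ∀ D : Divisor K F, N ≤ Divisor.degree D → h1 K F D = 0 := by
  obtain ⟨D₀, hD₀⟩ := exists_h1_vanish (K := K) (F := F)
  refine ⟨Divisor.degree D₀ + genusFF K F - ell K F (0 : Divisor K F) + 1, fun D hD => ?_⟩
  have hrr := riemann_roch (D - D₀)
  rw [map_sub] at hrr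
  obtain ⟨f, hf, hf0⟩ := exists_ne_zero_of_ell_pos
    (show 0 < ell K F (D - D₀) by omega)
  have hle : D₀ ≤ D + divOf f := by
    have h' := (mem_riemannRochSpace_iff_divOf hf0).mp hf
    intro v
    have hv := h' v
    simp only [Finsupp.coe_zero, Pi.zero_apply, Finsupp.add_apply, Finsupp.sub_apply] at hv
    simp only [Finsupp.add_apply]
    omega
  have hzero := h1_anti hle
  rw [h1_eq_zero_of_sup_eq_top hD₀] at hzero
  have h1' := riemann_roch D
  have h2' := riemann_roch (D + divOf f)
  rw [map_add, degree_divOf, add_zero, ell_add_divOf D hf0] at h2'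
  omega

end FLTAgent.FFRiemannRoch
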