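import Fermat.Agent.FFBasic.Degree
import Fermat.Agent.FFRiemannRoch.Repartition

/-!
# The Riemann bound

For `x` transcendental with `F` finite over `K(x)`: `degree_poleDiv` and the bound on
`deg D - ℓ(D)`, stated as `hasRiemannBound_of_finiteDimensional`.
-/

set_option autoImplicit false

noncomputable section

open AlgebraicCurve WithZero Polynomial IntermediateField

namespace FLTAgent.FFRiemannRoch

variable {K F : Type*} [Field K] [Field F] [Algebra K F]

variable [∀ v : Place K F, v.FiniteResidue] [HasPrincipalDivisors K F]
  {x : F} [FiniteDimensional K⟮x⟯ F]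

omit [∀ v : Place K F, v.FiniteResidue] in
/-- The poles of `x` have total degree `[F : K(x)]`. -/
theorem degree_poleDiv (hx : Transcendental K x) :
    Divisor.degree (poleDiv (K := K) x) = Module.finrank K⟮x⟯ F := by
  have : FFBasic.IsFunctionField K F := ⟨x, hx, ‹_›⟩
  rw [← FFBasic.degree_poles hx]
  congr 1
  ext v
  simp [poleDiv, divOf_apply]

variable [Nonempty (Place K F)]

/-- The Riemann bound from a finite map to the projective line. -/
theorem hasRiemannBound_of_finiteDimensional (hx : Transcendental K x) :
    HasRiemannBound K F := by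
  classical
  set n₀ := Module.finrank K⟮x⟯ F
  have hn₀ : 0 < n₀ := Module.finrank_pos
  let u := Module.finBasis K⟮x⟯ F
  set P := poleDiv (K := K) x
  set C : Divisor K F := ∑ i, poleDiv (K := K) (u i) with hC
  refine ⟨⟨Divisor.degree C - n₀, fun D => ?_⟩⟩
  have hell : ∀ n : ℕ, (n + 1) * n₀ ≤ ell K F (n • P + C) := by
    intro n
    have hpow : LinearIndependent K (fun j : Fin (n + 1) =>
        (AdjoinSimple.gen K x) ^ (j : ℕ)) := by
      have hinj : Function.Injective (aeval (AdjoinSimple.gen K x) : K[X] →ₐ[K] K⟮x⟯) := by
        intro p q h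
        refine transcendental_iff_injective.mp hx ?_
        have := congrArg (algebraMap K⟮x⟯ F) h
        rwa [← aeval_algebraMap_apply, ← aeval_algebraMap_apply,
          AdjoinSimple.algebraMap_gen] at this
      have := ((Polynomial.basisMonomials K).linearIndependent.map'
        (aeval (AdjoinSimple.gen K x)).toLinearMap (LinearMap.ker_eq_bot.mpr hinj)).comp
        (fun j : Fin (n + 1) => (j : ℕ)) Fin.val_injective
      simpa [Function.comp_def, aeval_monomial] using this
    have hind := linearIndependent_smul hpow u.linearIndependent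
    have hmem : ∀ q : Fin (n + 1) × Fin n₀,
        (AdjoinSimple.gen K x) ^ (q.1 : ℕ) • u q.2 ∈ riemannRochSpace (n • P + C) := by
      rintro ⟨j, i⟩
      rw [Algebra.smul_def, map_pow, AdjoinSimple.algebraMap_gen]
      have hxj : ∀ m : ℕ, x ^ m ∈ riemannRochSpace (m • P) := by
        intro m
        induction m with
        | zero =>
          rw [pow_zero, zero_smul]
          exact fun v => (mem_ball_iff_ord v).mpr (Or.inr (by simp))
        | succ m ih =>
          rw [pow_succ, succ_nsmul]
          exact FFBasic.mul_mem_riemannRochSpace ih (mem_riemannRochSpace_poleDiv x)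
      refine FFBasic.mul_mem_riemannRochSpace (FFBasic.riemannRochSpace_mono ?_ (hxj j))
        (FFBasic.riemannRochSpace_mono ?_ (mem_riemannRochSpace_poleDiv (u i)))
      · exact nsmul_le_nsmul_left (poleDiv_nonneg x) (Nat.lt_succ_iff.mp j.2)
      · rw [hC]
        exact Finset.single_le_sum (f := fun i => poleDiv (K := K) (u i))
          (fun i _ => poleDiv_nonneg _) (Finset.mem_univ i)
    have hind' : LinearIndependent K
        (fun q : Fin (n + 1) × Fin n₀ => (⟨_, hmem q⟩ : riemannRochSpace (n • P + C))) := by
      refine LinearIndependent.of_comp (Submodule.subtype _) ?_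
      exact hind
    have := hind'.fintype_card_le_finrank
    simpa [ell] using this
  set D' := D ⊔ 0
  obtain ⟨n, hn⟩ : ∃ n : ℕ, Divisor.degree D' ≤ n :=
    ⟨(Divisor.degree D').toNat, Int.self_le_toNat _⟩
  set E : Divisor K F := n • P + C
  have hdegE : Divisor.degree E ≤ n * n₀ + Divisor.degree C := by
    have := (degree_poleDiv (x := x) hx).le
    simp only [E, map_add, map_nsmul, nsmul_eq_mul]
    have := mul_le_mul_of_nonneg_left this (Int.natCast_nonneg n)
    linarith
  have hE := hell n
  have h1 := degree_sub_ell_mono (sub_le_self E (le_sup_right : (0 : Divisor K F) ≤ D'))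
  rw [map_sub] at h1
  have hE' : ((n : ℤ) + 1) * n₀ ≤ ell K F E := by exact_mod_cast hE
  have hnn : (n : ℤ) * 1 ≤ n * n₀ := mul_le_mul_of_nonneg_left (by omega) (by omega)
  have hpos : 0 < ell K F (E - D') := by nlinarith
  obtain ⟨f, hf, hf0⟩ := exists_ne_zero_of_ell_pos hpos
  have hle : D' ≤ E + divOf f := by
    intro v
    have := (mem_riemannRochSpace_iff_divOf hf0).mp hf v
    simp only [Finsupp.coe_zero, Pi.zero_apply, Finsupp.add_apply, Finsupp.sub_apply] at this
    simp only [Finsupp.add_apply]
    omega
  have h2 := degree_sub_ell_mono ((le_sup_left : D ≤ D').trans hle)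
  rw [map_add, degree_divOf, add_zero, ell_add_divOf E hf0] at h2
  nlinarith

end FLTAgent.FFRiemannRoch
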